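/-
S12 / block FI, part GEO (architect helper228): valuations, divisors and the corrections (steps (V),
(D), (C) of the blueprint #1479).  Definitions.

* `suppOn p`     : the divisors supported on the places satisfying `p`
* `DInf N A`     : the divisors supported near the cusp `∞` (`S15.A.NearInf`)
* `DZero N A`    : the divisors supported near the cusp `0` (`S15.A.NearZero`)
* `wPl N v`      : the image of the place `v` under the Fricke involution
* `Compat N A tJ tD tU` : `tJ`, `tD`, `tU` are "the same Hecke operator" acting on `J₀(N)`, on the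
                   divisors and on the multiplicative group of `FN N` (written additively)
* `sx N τ = 1 - τ j`, `ax N τ = 1 - τ j_N`
-/
import Fermat.Agent.S12.FI.Chart.Defs
import Fermat.Agent.S15.A.Defs
import Fermat.Agent.S37.HeckeInputs.Main

set_option autoImplicit false

noncomputable section

namespace Fermat.Agent.S12.FI.Geo

open ModularCurve AlgebraicCurve Fermat.Agent.S24 Fermat.Agent.S27 Fermat.Agent.S37
open Fermat.Agent.S15 Fermat.Agent.S15.A

variable (N : ℕ)

/-- The divisors supported on the places satisfying `p`. -/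
def suppOn {N : ℕ} (p : Place Kbar (FN N) → Prop) : AddSubgroup (Divisor Kbar (FN N)) where
  carrier := {D | ∀ v, D v ≠ 0 → p v}
  zero_mem' := fun v h => absurd rfl h
  add_mem' := by
    intro D E hD hE v h
    by_cases h1 : D v = 0
    · refine hE v fun h2 => h ?_
      rw [Finsupp.add_apply, h1, h2, add_zero]
    · exact hD v h1
  neg_mem' := by
    intro D hD v h
    refine hD v fun h1 => h ?_
    rw [Finsupp.neg_apply, h1, neg_zero]

theorem mem_suppOn {N : ℕ} {p : Place Kbar (FN N) → Prop} {D : Divisor Kbar (FN N)} :
    D ∈ suppOn p ↔ ∀ v, D v ≠ 0 → p v := Iff.rfl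

variable [NeZero N] (A : ValuationSubring Kbar)

/-- The divisors supported near `∞`. -/
def DInf : AddSubgroup (Divisor Kbar (FN N)) := suppOn (NearInf N A)

/-- The divisors supported near `0`. -/
def DZero : AddSubgroup (Divisor Kbar (FN N)) := suppOn (NearZero N A)

/-- The Fricke involution on the places. -/
def wPl (v : Place Kbar (FN N)) : Place Kbar (FN N) := SemilinearAut.ofAlgAut (wN N) • v

/-- The Fricke involution on the divisors. -/
def wDiv (D : Divisor Kbar (FN N)) : Divisor Kbar (FN N) := SemilinearAut.ofAlgAut (wN N) • D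

/-- `tJ`, `tD`, `tU` are the same "Hecke operator" on `J₀(N)`, on the divisors and on the
multiplicative group (written additively), and it preserves the two neighbourhoods of the cusps. -/
structure Compat (tJ : AddMonoid.End (JZero N)) (tD : AddMonoid.End (Divisor Kbar (FN N)))
    (tU : AddMonoid.End (Additive (FN N)ˣ)) : Prop where
  deg : ∀ D : Divisor Kbar (FN N), Divisor.degree D = 0 → Divisor.degree (tD D) = 0
  cls : ∀ D : Divisor Kbar (FN N), Divisor.degree D = 0 → tJ (cls D) = cls (tD D)
  div : ∀ (u : Additive (FN N)ˣ) (D : Divisor Kbar (FN N)),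
    IsDivOf D ((Additive.toMul u : (FN N)ˣ) : FN N) →
      IsDivOf (tD D) ((Additive.toMul (tU u) : (FN N)ˣ) : FN N)
  inf : ∀ D ∈ DInf N A, tD D ∈ DInf N A
  zero : ∀ D ∈ DZero N A, tD D ∈ DZero N A

/-- `1 - τ j`. -/
def sx (τ : Kbar) : FN N := 1 - algebraMap Kbar (FN N) τ * jF N

/-- `1 - τ j_N`. -/
def ax (τ : Kbar) : FN N := 1 - algebraMap Kbar (FN N) τ * jN N

/-- The Hecke correspondence on the divisors (`0` for `p = 0`). -/
def TD (p : ℕ) : AddMonoid.End (Divisor Kbar (FN N)) :=
  if h : p = 0 then 0 else
    haveI : NeZero p := ⟨h⟩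
    HeckeInputs.heckeDiv N p

/-- The multiplicative Hecke operator `u ↦ N_α (β u)`, written additively (`0` for `p = 0`). -/
def TU (p : ℕ) : AddMonoid.End (Additive (FN N)ˣ) :=
  if h : p = 0 then 0 else
    haveI : NeZero p := ⟨h⟩
    MonoidHom.toAdditive (Units.map ((HeckeInputs.normAlong (heckeAlphaBar Kbar N p)).comp
      (heckeBetaBar Kbar N p : FN N →* FN (N * p))))

end Fermat.Agent.S12.FI.Geo

end
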