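/-
S12 / FI / GEO (helper228), node CLEAR: clearing the poles of a function outside a set `s` of places by
means of a function `g` regular off `s` (step (C) of the blueprint).
-/
import Fermat.Agent.S12.FI.Geo.Defs
import Fermat.Agent.S12.FI.Chart.Places
import Fermat.Agent.S12.FI.Core.Binom

set_option autoImplicit false

noncomputable section

namespace Fermat.Agent.S12.FI.Geo

open ModularCurve AlgebraicCurve Fermat.Agent.S24 Fermat.Agent.S27 Fermat.Agent.S37

variable {N : ℕ} [NeZero N]

/-- `1 - g / g(y)`. -/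
def corr1 (g : FN N) (y : Place Kbar (FN N)) : FN N :=
  1 - algebraMap Kbar (FN N) (val y g)⁻¹ * g

/-- The correction factor `∏_{y ∈ T} (1 - g / g(y)) ^ n y`. -/
def corrF (g : FN N) (T : Finset (Place Kbar (FN N))) (n : Place Kbar (FN N) → ℕ) : FN N :=
  ∏ y ∈ T, corr1 g y ^ n y

variable {g : FN N} {T : Finset (Place Kbar (FN N))} {n : Place Kbar (FN N) → ℕ}
  {s : Set (Place Kbar (FN N))}

theorem corr1_mem_regOff (hg : g ∈ regOff s) (y : Place Kbar (FN N)) : corr1 g y ∈ regOff s :=
  sub_mem (one_mem _) (mul_mem (FI.algebraMap_mem_regOff N s _) hg)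

theorem corrF_mem_regOff (hg : g ∈ regOff s) : corrF g T n ∈ regOff s :=
  prod_mem fun y _ => pow_mem (corr1_mem_regOff hg y) _

/-- `1 - g / g(y)` vanishes at `y` -/
theorem van_corr1 {y : Place Kbar (FN N)} (hy : 0 ≤ y.ord g) (hgy : val y g ≠ 0) :
    Van y (corr1 g y) := by
  have h1 : corr1 g y = -(algebraMap Kbar (FN N) (val y g)⁻¹ *
      (g - algebraMap Kbar (FN N) (val y g))) := by
    rw [corr1, mul_sub, ← map_mul, inv_mul_cancel₀ hgy, map_one]
    ring
  rw [h1]
  exact (Van.mul_left (ord_algebraMap_nonneg _) (van_sub_val hy)).neg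

/-- a function with a pole of order `≤ k` times the `k`-th power of a function vanishing at `y` is
regular at `y` -/
theorem mul_pow_mem_of_van {y : Place Kbar (FN N)} {h f : FN N} {k : ℕ} (hf : Van y f)
    (hk : -(k : ℤ) ≤ y.ord h) : h * f ^ k ∈ y.toValuationSubring := by
  by_cases hh : h = 0
  · rw [hh, zero_mul]
    exact zero_mem _
  rcases hf with rfl | hf
  · rcases Nat.eq_zero_or_pos k with rfl | hk0
    · rw [pow_zero, mul_one]
      exact FF.mem_of_ord_nonneg y (by simpa using hk)
    · rw [zero_pow hk0.ne', mul_zero]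
      exact zero_mem _
  · have hf0 : f ≠ 0 := by
      rintro rfl
      rw [Place.ord_zero] at hf
      exact lt_irrefl _ hf
    apply FF.mem_of_ord_nonneg
    rw [y.ord_mul hh (pow_ne_zero k hf0), FF.ord_pow]
    have h1 : (k : ℤ) * 1 ≤ (k : ℤ) * y.ord f :=
      mul_le_mul_of_nonneg_left (by omega) (Int.natCast_nonneg k)
    omega

/-- **Clearing the poles.** -/
theorem mul_corrF_mem_regOff (hg : g ∈ regOff s) (h : FN N)
    (hT : ∀ y : Place Kbar (FN N), y ∉ s → y.ord h < 0 →
      y ∈ T ∧ val y g ≠ 0 ∧ -(n y : ℤ) ≤ y.ord h) :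
    h * corrF g T n ∈ regOff s := by
  classical
  intro y hy
  by_cases hh : 0 ≤ y.ord h
  · exact mul_mem (FF.mem_of_ord_nonneg y hh) (corrF_mem_regOff hg y hy)
  · obtain ⟨hyT, hgy, hn⟩ := hT y hy (not_le.1 hh)
    rw [corrF, ← Finset.mul_prod_erase T _ hyT, ← mul_assoc]
    refine mul_mem (mul_pow_mem_of_van (van_corr1 (FF.ord_nonneg_of_mem y (hg y hy)) hgy) hn) ?_
    exact prod_mem fun z _ => pow_mem (corr1_mem_regOff hg z y hy) _

variable {A : ValuationSubring Kbar}

theorem lt_one_mul {a b : LaurentSeries Kbar} (ha : Lt A 1 (a - 1)) (hb : Lt A 1 (b - 1)) :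
    Lt A 1 (a * b - 1) := by
  have h1 : a * b - 1 = (a - 1) * b + (b - 1) := by ring
  rw [h1]
  have h2 := ha.mul_le hb.le_of_sub_one one_ne_zero
  rw [mul_one] at h2
  exact h2.add hb

theorem lt_one_corr1 (hg : Le A 1 (g : LaurentSeries Kbar)) {y : Place Kbar (FN N)}
    (hy : 1 < A.valuation (val y g)) : Lt A 1 ((corr1 g y : FN N) - 1 : LaurentSeries Kbar) := by
  have h1 : ((corr1 g y : FN N) - 1 : LaurentSeries Kbar) =
      -(HahnSeries.C (val y g)⁻¹ * (g : LaurentSeries Kbar)) := by
    rw [← FI.toL_algebraMap N, ← FI.toL_apply, ← FI.toL_apply, ← map_mul, ← map_one (FI.toL N),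
      ← map_sub, ← map_neg, corr1]
    congr 1
    ring
  rw [h1]
  refine (hg.smul_lt one_ne_zero ?_).neg
  rw [map_inv₀]
  exact inv_lt_one_of_one_lt₀ hy

/-- the correction factor is `≡ 1` -/
theorem lt_one_corrF (hg : Le A 1 (g : LaurentSeries Kbar))
    (hT : ∀ y ∈ T, 1 < A.valuation (val y g)) :
    Lt A 1 ((corrF g T n : FN N) - 1 : LaurentSeries Kbar) := by
  classical
  have h0 : Lt A 1 ((1 : LaurentSeries Kbar) - 1) := fun k => by
    rw [sub_self, HahnSeries.coeff_zero, map_zero, map_one]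
    exact zero_lt_one
  have hpow : ∀ (y : Place Kbar (FN N)), 1 < A.valuation (val y g) → ∀ k : ℕ,
      Lt A 1 ((corr1 g y ^ k : FN N) - 1 : LaurentSeries Kbar) := by
    intro y hy k
    induction k with
    | zero =>
      rw [pow_zero]
      exact h0
    | succ k ih =>
      rw [pow_succ]
      exact lt_one_mul ih (lt_one_corr1 hg hy)
  unfold corrF
  induction T using Finset.induction_on with
  | empty =>
    rw [Finset.prod_empty]
    exact h0
  | insert y T hyT ih =>
    rw [Finset.prod_insert hyT]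
    exact lt_one_mul (hpow y (hT y (Finset.mem_insert_self y T)) _)
      (ih fun z hz => hT z (Finset.mem_insert_of_mem hz))

end Fermat.Agent.S12.FI.Geo

end
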