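/-
S12 / FI / GEO (helper228), node COMPAT: the compatible triples form a "subring"; hence every element
of a free ring acting through compatible generators acts through a compatible triple.
-/
import Fermat.Agent.S12.FI.Geo.Defs

set_option autoImplicit false

noncomputable section

namespace Fermat.Agent.S12.FI.Geo

open ModularCurve AlgebraicCurve Fermat.Agent.S24 Fermat.Agent.S27 Fermat.Agent.S37
open Fermat.Agent.S15 Fermat.Agent.S15.A

variable {N : ℕ} [NeZero N] {A : ValuationSubring Kbar}
variable {tJ tJ' : AddMonoid.End (JZero N)} {tD tD' : AddMonoid.End (Divisor Kbar (FN N))}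
  {tU tU' : AddMonoid.End (Additive (FN N)ˣ)}

theorem isDivOf_one : IsDivOf (0 : Divisor Kbar (FN N)) (1 : FN N) := by
  sorry

theorem IsDivOf.mul' {D E : Divisor Kbar (FN N)} {f g : FN N} (hf : IsDivOf D f)
    (hg : IsDivOf E g) : IsDivOf (D + E) (f * g) := by
  sorry

theorem IsDivOf.inv' {D : Divisor Kbar (FN N)} {f : FN N} (hf : IsDivOf D f) :
    IsDivOf (-D) f⁻¹ := by
  sorry

theorem Compat.zero' : Compat N A 0 0 0 := by
  sorry

theorem Compat.one' : Compat N A 1 1 1 := by
  sorry

theorem Compat.add' (h : Compat N A tJ tD tU) (h' : Compat N A tJ' tD' tU') :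
    Compat N A (tJ + tJ') (tD + tD') (tU + tU') := by
  sorry

theorem Compat.neg' (h : Compat N A tJ tD tU) : Compat N A (-tJ) (-tD) (-tU) := by
  sorry

theorem Compat.mul' (h : Compat N A tJ tD tU) (h' : Compat N A tJ' tD' tU') :
    Compat N A (tJ * tJ') (tD * tD') (tU * tU') := by
  sorry

theorem Compat.intCast' (n : ℤ) : Compat N A (n : AddMonoid.End (JZero N))
    (n : AddMonoid.End (Divisor Kbar (FN N))) (n : AddMonoid.End (Additive (FN N)ˣ)) := by
  sorry

/-- The ring of the compatible triples. -/
def compatRing (N : ℕ) [NeZero N] (A : ValuationSubring Kbar) :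
    Subring (AddMonoid.End (JZero N) × AddMonoid.End (Divisor Kbar (FN N)) ×
      AddMonoid.End (Additive (FN N)ˣ)) where
  carrier := {t | Compat N A t.1 t.2.1 t.2.2}
  mul_mem' h h' := h.mul' h'
  one_mem' := Compat.one'
  add_mem' h h' := h.add' h'
  zero_mem' := Compat.zero'
  neg_mem' h := h.neg'

theorem mem_compatRing {t : AddMonoid.End (JZero N) × AddMonoid.End (Divisor Kbar (FN N)) ×
    AddMonoid.End (Additive (FN N)ˣ)} : t ∈ compatRing N A ↔ Compat N A t.1 t.2.1 t.2.2 := Iff.rfl

/-- **Every element of a free ring acting through compatible generators acts through a compatible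
triple.**  (`FreeAlgebra ℤ ι` is NOT usable here: `Algebra ℤ (AddMonoid.End (JZero N))` is not found by
instance resolution.) -/
theorem compat_lift {ι : Type*} (gJ : ι → AddMonoid.End (JZero N))
    (gD : ι → AddMonoid.End (Divisor Kbar (FN N))) (gU : ι → AddMonoid.End (Additive (FN N)ˣ))
    (h : ∀ i, Compat N A (gJ i) (gD i) (gU i)) (t : FreeRing ι) :
    Compat N A (FreeRing.lift gJ t) (FreeRing.lift gD t) (FreeRing.lift gU t) := by
  sorry

end Fermat.Agent.S12.FI.Geo

end
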