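/-
S12 / FI / GEO (helper228), node GFUN: the functions `g_∞ = j - P(j_N)` (regular off `∞`) and
`g_0 = j_N - P(j)` (regular off `0`).  They replace the modular unit of the blueprint.
This file: definitions, action of `w`, integrality of the expansions at `∞`.
-/
import Fermat.Agent.S12.FI.Geo.Defs
import Fermat.Agent.S15.A.Cusp.WN
import Fermat.Agent.Lib.ModEq.Calc

set_option autoImplicit false

noncomputable section

namespace Fermat.Agent.S12.FI.Geo

open Polynomial ModularCurve AlgebraicCurve Fermat.Agent.S24 Fermat.Agent.S27 Fermat.Agent.S37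
open Fermat.Agent.S15 Fermat.Agent.S15.A

variable (N : ℕ) [NeZero N]

/-- `g_∞ = j - P(j_N)`. -/
def gInf (P : ℤ[X]) : FN N := jF N - aeval (jN N) P

/-- `g_0 = j_N - P(j)`. -/
def gZero (P : ℤ[X]) : FN N := jN N - aeval (jF N) P

variable {N} {P : ℤ[X]}

theorem wN_gInf : wN N (gInf N P) = gZero N P := by
  sorry

theorem wN_gZero : wN N (gZero N P) = gInf N P := by
  sorry

theorem le_one_Jser (A : ValuationSubring Kbar) (d : ℕ) [NeZero d] : Le A 1 (Jser d) := by
  sorry

theorem le_one_aeval (A : ValuationSubring Kbar) (f : LaurentSeries Kbar) (hf : Le A 1 f)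
    (P : ℤ[X]) : Le A 1 (aeval f P) := by
  sorry

theorem coe_gInf (P : ℤ[X]) :
    ((gInf N P : FN N) : LaurentSeries Kbar) = Jser 1 - aeval (Jser N) P := by
  sorry

theorem coe_gZero (P : ℤ[X]) :
    ((gZero N P : FN N) : LaurentSeries Kbar) = Jser N - aeval (Jser 1) P := by
  sorry

theorem le_one_gInf (A : ValuationSubring Kbar) (P : ℤ[X]) :
    Le A 1 ((gInf N P : FN N) : LaurentSeries Kbar) := by
  rw [coe_gInf]
  exact (le_one_Jser A 1).sub (le_one_aeval A _ (le_one_Jser A N) P)

theorem le_one_gZero (A : ValuationSubring Kbar) (P : ℤ[X]) :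
    Le A 1 ((gZero N P : FN N) : LaurentSeries Kbar) := by
  rw [coe_gZero]
  exact (le_one_Jser A N).sub (le_one_aeval A _ (le_one_Jser A 1) P)

end Fermat.Agent.S12.FI.Geo

end
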