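/-
S12 / FI / GEO (helper228), node ONLY: the poles of `j` on `X₀(N)`, `N` prime, are the two cusps.
-/
import Fermat.Agent.S15.A.Cusp.Cusp0
import Fermat.Agent.S15.Dict.Uniq
import Fermat.Agent.S37.C0.Descent
import Fermat.Agent.S24.Formal

set_option autoImplicit false

noncomputable section

namespace Fermat.Agent.S12.FI.Geo

open ModularCurve AlgebraicCurve Fermat.Agent.S24 Fermat.Agent.S27 Fermat.Agent.S37
open Fermat.Agent.S15 Fermat.Agent.S15.A

/-- `FN 1 = ℚ̄(j)`. -/
theorem adjoin_jF_one : IntermediateField.adjoin Kbar {jF 1} = ⊤ := by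
  rw [eq_top_iff, ← Fermat.Agent.S24.Formal.adjoin_JF_eq_top 1]
  apply IntermediateField.adjoin.mono
  rintro _ ⟨d, hne, hd, rfl⟩
  obtain rfl := Nat.dvd_one.1 hd
  rfl

/-- `j` has only one pole on `X₀(1)`. -/
theorem eq_of_ord_jF_one_neg (v w : Place Kbar (FN 1)) (hv : v.ord (jF 1) < 0)
    (hw : w.ord (jF 1) < 0) : v = w := by
  have h0 : jF 1 ≠ 0 := by
    intro h
    rw [h] at hv
    simp at hv
  have htop : IntermediateField.adjoin Kbar {(jF 1)⁻¹, (jF 1)⁻¹} = ⊤ := by
    rw [eq_top_iff, ← adjoin_jF_one, IntermediateField.adjoin_le_iff]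
    rintro _ rfl
    have h1 : (jF 1)⁻¹ ∈ IntermediateField.adjoin Kbar {(jF 1)⁻¹, (jF 1)⁻¹} :=
      IntermediateField.subset_adjoin _ _ (Or.inl rfl)
    have h2 := inv_mem h1
    rwa [inv_inv] at h2
  refine Fermat.Agent.S15.Dict.place_unique (jF 1)⁻¹ (jF 1)⁻¹ htop 0 0 1 1 one_ne_zero
    (one_mem _) (one_mem _) (by rw [one_mul, mul_one]) v w ?_ ?_ v.ord_one ?_ ?_ w.ord_one
  all_goals
    rw [map_zero, sub_zero, Place.ord_inv]
    omega

/-- `[FN N : FN 1] = N + 1`. -/
theorem finrankAlong_levelIncl (N : ℕ) [NeZero N] (hN : N.Prime) :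
    finrankAlong Kbar (GAL.levelIncl (one_dvd N)) = N + 1 := by
  have h := GAL.dedekindPsi_mul_finrank (one_dvd N)
  have e : dedekindPsi N = N + 1 := by
    have h := S20.Combinatorics.dedekindPsi_mul_of_not_dvd (p := N) (N := 1) one_ne_zero hN
      (fun h => hN.one_lt.ne' (Nat.dvd_one.mp h))
    rwa [mul_one, dedekindPsi_one, mul_one] at h
  have h' : dedekindPsi 1 * finrankAlong Kbar (GAL.levelIncl (one_dvd N)) = dedekindPsi N := h
  rw [e, dedekindPsi_one, one_mul] at h'
  exact h'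

variable (N : ℕ) [NeZero N]

/-- **The poles of `j` are the two cusps.** -/
theorem eq_cusp_of_ord_jF_neg (hN : N.Prime) (v : Place Kbar (FN N)) (hv : v.ord (jF N) < 0) :
    v = cuspInf N ∨ v = cusp0 N := by
  classical
  set φ : FN 1 →ₐ[Kbar] FN N := GAL.levelIncl (one_dvd N) with hφdef
  have hφj : φ (jF 1) = jF N := GAL.levelIncl_jF (one_dvd N)
  have hfin : FiniteAlong Kbar φ := HeckeInputs.finiteAlong φ (jF 1) (Formal.transcendental_jF 1)
  have hφ : φ.toRingHom.IsIntegral := HeckeInputs.isIntegral_of_finiteAlong φ hfin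
  set u : Place Kbar (FN 1) := (cuspInf N).restrictAlong φ hφ with hu
  have hord : ∀ w : Place Kbar (FN N),
      w.ord (jF N) = Place.ramificationIndexAlong φ w * (w.restrictAlong φ hφ).ord (jF 1) := by
    intro w
    rw [← hφj]
    exact Place.ord_restrictAlong φ hφ w (jF 1)
  have hneg : ∀ w : Place Kbar (FN N), w.ord (jF N) < 0 →
      (w.restrictAlong φ hφ).ord (jF 1) < 0 := by
    intro w hw
    rw [hord w] at hw
    by_contra hcon
    push Not at hcon
    have : (0 : ℤ) ≤ Place.ramificationIndexAlong φ w * (w.restrictAlong φ hφ).ord (jF 1) :=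
      mul_nonneg (Int.natCast_nonneg _) hcon
    omega
  have hInf : (cuspInf N).ord (jF N) = -1 := ord_cuspInf_jF N
  have huneg : u.ord (jF 1) < 0 := hneg _ (by rw [hInf]; omega)
  have hfib : ∀ w : Place Kbar (FN N), w.ord (jF N) < 0 → w ∈ Place.fiberAlong φ hφ u := by
    intro w hw
    rw [Place.mem_fiberAlong]
    exact eq_of_ord_jF_one_neg _ _ (hneg w hw) huneg
  have hres : ∀ w : Place Kbar (FN N), w.ord (jF N) < 0 → w.restrictAlong φ hφ = u :=
    fun w hw => Place.mem_fiberAlong.1 (hfib w hw)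
  -- `ord_u j = -1`
  have hu1 : u.ord (jF 1) = -1 := by
    have h1 := hord (cuspInf N)
    rw [hInf, ← hu] at h1
    have h2 : u.ord (jF 1) ∣ -1 := ⟨_, by rw [h1]; ring⟩
    have h3 : u.ord (jF 1) ∣ 1 := by simpa using h2
    rcases Int.isUnit_iff.1 (isUnit_of_dvd_one h3) with h | h
    · omega
    · exact h
  have he : ∀ w : Place Kbar (FN N), w.ord (jF N) < 0 →
      (Place.ramificationIndexAlong φ w : ℤ) = - w.ord (jF N) := by
    intro w hw
    have h1 := hord w
    rw [hres w hw, hu1] at h1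
    omega
  have hsum := descent_sum_ramificationIndexAlong φ hfin hφ u
  rw [finrankAlong_levelIncl N hN] at hsum
  by_contra hcon
  push Not at hcon
  have h0neg : (cusp0 N).ord (jF N) < 0 := by
    rw [ord_cusp0_jF]
    have := hN.pos
    omega
  have hInfneg : (cuspInf N).ord (jF N) < 0 := by rw [hInf]; omega
  have hsub : ({cuspInf N, cusp0 N, v} : Finset (Place Kbar (FN N))) ⊆
      Place.fiberAlong φ hφ u := by
    intro w hw
    simp only [Finset.mem_insert, Finset.mem_singleton] at hw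
    rcases hw with rfl | rfl | rfl
    · exact hfib _ hInfneg
    · exact hfib _ h0neg
    · exact hfib _ hv
  have hle := Finset.sum_le_sum_of_subset_of_nonneg
    (f := fun w : Place Kbar (FN N) => (w.ramificationIndexAlong φ : ℤ)) hsub
    (fun _ _ _ => Int.natCast_nonneg _)
  rw [hsum, Finset.sum_insert, Finset.sum_insert, Finset.sum_singleton, he _ hInfneg, he _ h0neg,
    he _ hv, hInf, ord_cusp0_jF] at hle
  · push_cast at hle
    omega
  · rw [Finset.mem_singleton]
    exact fun h => hcon.2 h.symm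
  · simp only [Finset.mem_insert, Finset.mem_singleton, not_or]
    exact ⟨fun h => cusp0_ne_cuspInf N hN.one_lt h.symm, fun h => hcon.1 h.symm⟩

theorem isCusp0_cusp0 (hN : N.Prime) : IsCusp0 N (cusp0 N) :=
  ⟨ord_cusp0_jF N, ord_cusp0_jN N, eq_cusp_of_ord_jF_neg N hN⟩

end Fermat.Agent.S12.FI.Geo

end
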