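/-
S12 / FI / GEO (helper228), node PP: there is a monic `P ∈ ℤ[X]` of degree `N` such that
`j(q^N) - P(j(q))` has no principal part.
-/
import Fermat.Agent.Lib.ModEq.PolyJ
import Fermat.Agent.Lib.ModEq.Main

set_option autoImplicit false

noncomputable section

namespace Fermat.Agent.S12.FI.Geo

open Polynomial ModularCurve Fermat.Agent.S24

/-- `P` is monic of degree `N` and `j(q^N) - P(j(q))` is a power series. -/
def IsPP (N : ℕ) [NeZero N] (P : ℤ[X]) : Prop :=
  P.Monic ∧ P.natDegree = N ∧ ∀ n : ℤ, n < 0 → (Jser N - aeval (Jser 1) P).coeff n = 0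

theorem PP_Jser_eq (d : ℕ) [NeZero d] :
    Jser d = coeffMap (Int.castRingHom Kbar) (qExpand ℤ d (jqModC ℤ)) := by
  unfold Jser coeffEmb
  rw [coeffMap_qExpand, coeffMap_qExpand, ← jqModC_rat, coeffMap_jqModC, coeffMap_jqModC]

/-- the coefficients of `j(q^d)` are integers -/
theorem exists_int_coeff_Jser (d : ℕ) [NeZero d] (n : ℤ) : ∃ z : ℤ, (Jser d).coeff n = (z : Kbar) := by
  rw [PP_Jser_eq]
  exact ⟨(qExpand ℤ d (jqModC ℤ)).coeff n, rfl⟩

/-- all the coefficients are rational integers -/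
def PP_ZC (f : LaurentSeries Kbar) : Prop := ∀ m : ℤ, ∃ z : ℤ, f.coeff m = (z : Kbar)

theorem PP_ZC.mul {f g : LaurentSeries Kbar} (hf : PP_ZC f) (hg : PP_ZC g) : PP_ZC (f * g) := by
  intro m
  choose a ha using hf
  choose b hb using hg
  rw [HahnSeries.coeff_mul]
  refine ⟨∑ ij ∈ Finset.antidiagonal f.isPWO_support g.isPWO_support m, a ij.1 * b ij.2, ?_⟩
  push_cast
  exact Finset.sum_congr rfl fun ij _ => by rw [ha, hb]

theorem PP_ZC.sub {f g : LaurentSeries Kbar} (hf : PP_ZC f) (hg : PP_ZC g) : PP_ZC (f - g) := by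
  intro m
  obtain ⟨a, ha⟩ := hf m
  obtain ⟨b, hb⟩ := hg m
  exact ⟨a - b, by rw [HahnSeries.coeff_sub, ha, hb]; push_cast; rfl⟩

theorem PP_ZC.one : PP_ZC 1 := by
  intro m
  rw [HahnSeries.coeff_one]
  split_ifs
  · exact ⟨1, by simp⟩
  · exact ⟨0, by simp⟩

theorem PP_ZC.pow {f : LaurentSeries Kbar} (hf : PP_ZC f) (k : ℕ) : PP_ZC (f ^ k) := by
  induction k with
  | zero => simpa using PP_ZC.one
  | succ k ih => rw [pow_succ]; exact ih.mul hf

theorem PP_coeff_intCast_mul (a : ℤ) (f : LaurentSeries Kbar) (m : ℤ) :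
    ((a : LaurentSeries Kbar) * f).coeff m = (a : Kbar) * f.coeff m := by
  have h : (a : LaurentSeries Kbar) = algebraMap Kbar (LaurentSeries Kbar) (a : Kbar) := by
    rw [map_intCast]
  rw [h, Formal.coeff_algebraMap_mul_laurent]

theorem PP_ZC.intCast_mul (a : ℤ) {f : LaurentSeries Kbar} (hf : PP_ZC f) :
    PP_ZC ((a : LaurentSeries Kbar) * f) := by
  intro m
  obtain ⟨b, hb⟩ := hf m
  exact ⟨a * b, by rw [PP_coeff_intCast_mul, hb]; push_cast; rfl⟩

/-- killing the principal part of a series with integral coefficients, pole of order `≤ n` and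
coefficient `a` of `q^(-n)` -/
theorem exists_poly_sub (n : ℕ) (f : LaurentSeries Kbar)
    (hint : ∀ m : ℤ, ∃ z : ℤ, f.coeff m = (z : Kbar)) (hb : ∀ m : ℤ, m < -(n : ℤ) → f.coeff m = 0) :
    ∃ P : ℤ[X], P.natDegree ≤ n ∧ ((P.coeff n : ℤ) : Kbar) = f.coeff (-(n : ℤ)) ∧
      ∀ m : ℤ, m < 0 → (f - aeval (Jser 1) P).coeff m = 0 := by
  induction n generalizing f with
  | zero =>
    obtain ⟨a, ha⟩ := hint 0
    refine ⟨C a, natDegree_C a |>.le, ?_, ?_⟩
    · rw [coeff_C_zero, ← ha]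
      simp
    · intro m hm
      have h1 : aeval (Jser 1) (C a) = (a : LaurentSeries Kbar) * 1 := by
        rw [aeval_C, mul_one, eq_intCast]
      rw [HahnSeries.coeff_sub, h1, PP_coeff_intCast_mul, HahnSeries.coeff_one, if_neg hm.ne,
        mul_zero, sub_zero]
      exact hb m (by simpa using hm)
  | succ n ih =>
    obtain ⟨a, ha⟩ := hint (-((n + 1 : ℕ) : ℤ))
    have hJ := Lib.ModEq.PolyJ.bdd_pow 1 (n + 1)
    have e1 : ((1 : ℕ) : ℤ) * ((n + 1 : ℕ) : ℤ) = ((n + 1 : ℕ) : ℤ) := by push_cast; ring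
    rw [e1] at hJ
    set f' : LaurentSeries Kbar := f - (a : LaurentSeries Kbar) * Jser 1 ^ (n + 1) with hf'
    have hint' : ∀ m : ℤ, ∃ z : ℤ, f'.coeff m = (z : Kbar) :=
      PP_ZC.sub hint (PP_ZC.intCast_mul a (PP_ZC.pow (exists_int_coeff_Jser 1) (n + 1)))
    have hb' : ∀ m : ℤ, m < -(n : ℤ) → f'.coeff m = 0 := by
      intro m hm
      rw [hf', HahnSeries.coeff_sub, PP_coeff_intCast_mul]
      rcases lt_or_eq_of_le (show m ≤ -((n + 1 : ℕ) : ℤ) by push_cast; omega) with h | h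
      · rw [hb m h, hJ.1 m h, mul_zero, sub_zero]
      · rw [h, ha, hJ.2, mul_one, sub_self]
    obtain ⟨P', hd', -, hP'⟩ := ih f' hint' hb'
    refine ⟨P' + C a * X ^ (n + 1), ?_, ?_, ?_⟩
    · exact natDegree_add_le_of_degree_le (hd'.trans (Nat.le_succ n))
        (natDegree_C_mul_X_pow_le a (n + 1))
    · rw [coeff_add, coeff_eq_zero_of_natDegree_lt (Nat.lt_succ_of_le hd'), zero_add,
        coeff_C_mul_X_pow, if_pos rfl, ha]
    · intro m hm
      have h1 : f - aeval (Jser 1) (P' + C a * X ^ (n + 1)) = f' - aeval (Jser 1) P' := by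
        rw [map_add, map_mul, map_pow, aeval_X, aeval_C, eq_intCast, hf']
        ring
      rw [h1]
      exact hP' m hm

theorem exists_isPP (N : ℕ) [NeZero N] : ∃ P : ℤ[X], IsPP N P := by
  obtain ⟨P, hd, hc, hP⟩ := exists_poly_sub N (Jser N) (exists_int_coeff_Jser N)
    (Lib.ModEq.bdd_Jser N)
  rw [Lib.ModEq.coeff_Jser_neg] at hc
  have hc1 : P.coeff N = 1 := by exact_mod_cast hc
  refine ⟨P, monic_of_natDegree_le_of_coeff_eq_one N hd hc1, ?_, hP⟩
  exact natDegree_eq_of_le_of_coeff_ne_zero hd (by rw [hc1]; exact one_ne_zero)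

end Fermat.Agent.S12.FI.Geo

end
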