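/-
S12 / FI / GEO (helper228), node GREG: `g_∞ = j - P(j_N)` is regular off `∞`, `g_0 = j_N - P(j)` is
regular off `0`.
-/
import Fermat.Agent.S12.FI.Geo.GFun
import Fermat.Agent.S12.FI.Geo.PP
import Fermat.Agent.S12.FI.Geo.Only
import Fermat.Agent.S12.FI.Chart.Places
import Fermat.Agent.S15.A.Hecke.ModEqJ
import Fermat.Agent.S15.A.Hecke.NP2

set_option autoImplicit false

noncomputable section

namespace Fermat.Agent.S12.FI.Geo

open Polynomial ModularCurve AlgebraicCurve Fermat.Agent.S24 Fermat.Agent.S27 Fermat.Agent.S37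
open Fermat.Agent.S15 Fermat.Agent.S15.A

variable {N : ℕ} [NeZero N] {P : ℤ[X]}

/-- the modular equation in the shape of `S15/A/Hecke` -/
theorem modEq_jF_jN (hN : N.Prime) : ModEq N (phiC N hN) (jF N) (jN N) := by
  sorry

/-- `j_N` is regular where `j` is -/
theorem ord_jN_nonneg (hN : N.Prime) {v : Place Kbar (FN N)} (h : 0 ≤ v.ord (jF N)) :
    0 ≤ v.ord (jN N) := by
  sorry

theorem ord_aeval_nonneg {v : Place Kbar (FN N)} {f : FN N} (h : 0 ≤ v.ord f) (P : ℤ[X]) :
    0 ≤ v.ord (aeval f P) := by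
  sorry

theorem gZero_mem_cuspInf (hP : IsPP N P) : gZero N P ∈ (cuspInf N).toValuationSubring := by
  sorry

theorem gInf_mem_regOff (hN : N.Prime) (hP : IsPP N P) : gInf N P ∈ regOff {cuspInf N} := by
  sorry

theorem gZero_mem_regOff (hN : N.Prime) (hP : IsPP N P) : gZero N P ∈ regOff {cusp0 N} := by
  sorry

end Fermat.Agent.S12.FI.Geo

end
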