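/-
S12 / FI / GEO (helper228), node VALPOLY: the valuation of a monic integral polynomial at a big
element; uniqueness of the big root of the modular equation.  Mathlib + `S15/Dict/Newton` only.
-/
import Fermat.Agent.S15.Dict.NewtonSimple

set_option autoImplicit false

namespace Fermat.Agent.S12.FI.Geo

open Polynomial Fermat.Agent.S15.Dict

variable {K : Type*} [Field K] {Γ : Type*} [LinearOrderedCommGroupWithZero Γ]

/-- `|P(x)| = |x|^deg P` for `P ∈ ℤ[X]` monic and `|x| > 1`. -/
theorem valuation_aeval_monic (v : Valuation K Γ) (P : ℤ[X]) (hP : P.Monic) (x : K)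
    (hx : 1 < v x) : v (aeval x P) = v x ^ P.natDegree := by
  have hx0 : v x ≠ 0 := (lt_trans zero_lt_one hx).ne'
  rw [Polynomial.aeval_eq_sum_range, Finset.sum_range_succ, hP.coeff_natDegree, one_smul]
  have hlt : v (∑ i ∈ Finset.range P.natDegree, P.coeff i • x ^ i) < v (x ^ P.natDegree) := by
    rw [map_pow]
    refine Valuation.map_sum_lt v (pow_ne_zero _ hx0) fun i hi => ?_
    rw [zsmul_eq_mul, map_mul, map_pow]
    calc v (P.coeff i : K) * v x ^ i ≤ 1 * v x ^ i :=
          mul_le_mul' (newtonSimple_val_int v _) le_rfl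
      _ = v x ^ i := one_mul _
      _ < v x ^ P.natDegree := pow_lt_pow_right₀ hx (Finset.mem_range.1 hi)
  rw [Valuation.map_add_eq_of_lt_right v hlt, map_pow]

/-- `|x + A_N| ≤ 1` for a big root `x` of `Φ(T,y)` (`A_N` = the coefficient of `T^N`). -/
theorem newton_add_coeff_le (v : Valuation K Γ) (N : ℕ) (hN : 2 ≤ N) (c : ℕ → ℕ → ℤ)
    (x y : K) (h : phiEval N c x y = 0) (hy : 1 < v y) (hxy : v x = v y ^ N) :
    v (x + newtonSimpleCoeff N c y N) ≤ 1 := by
  set A := newtonSimpleCoeff N c y with hA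
  have hN0 : N ≠ 0 := by omega
  have hx1 : 1 < v x := by rw [hxy]; exact one_lt_pow₀ hy hN0
  have hx0 : v x ≠ 0 := (lt_trans zero_lt_one hx1).ne'
  have hAle : ∀ a, v (A a) ≤ v x := fun a => by
    rw [hxy]; exact newtonSimple_val_coeff v N c y hy a
  have h1 : x ^ N * (x + A N) = -(y ^ (N + 1) + ∑ a ∈ Finset.range N, A a * x ^ a) := by
    have := h
    rw [newtonSimple_phiEval, Finset.sum_range_succ] at this
    linear_combination this
  have h2 : v (y ^ (N + 1) + ∑ a ∈ Finset.range N, A a * x ^ a) ≤ v x ^ N := by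
    refine Valuation.map_add_le v ?_ (Valuation.map_sum_le v fun a ha => ?_)
    · rw [map_pow, hxy, ← pow_mul]
      refine pow_le_pow_right₀ hy.le ?_
      nlinarith
    · rw [map_mul, map_pow]
      have ha' : a + 1 ≤ N := Finset.mem_range.1 ha
      calc v (A a) * v x ^ a ≤ v x * v x ^ a := mul_le_mul' (hAle a) le_rfl
        _ = v x ^ (a + 1) := by rw [pow_succ, mul_comm]
        _ ≤ v x ^ N := pow_le_pow_right₀ hx1.le ha'
  have h4 : v x ^ N * v (x + A N) ≤ v x ^ N * 1 := by
    rw [mul_one, ← map_pow, ← map_mul, h1, Valuation.map_neg, map_pow]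
    exact h2
  exact le_of_mul_le_mul_left h4 (pow_pos (zero_lt_iff.2 hx0) N)

/-- the divided difference `(x ^ a - x' ^ a) / (x - x')`, by recursion -/
private noncomputable def ValPoly_S (x x' : K) : ℕ → K
  | 0 => 0
  | a + 1 => x ^ a + x' * ValPoly_S x x' a

private theorem ValPoly_S_mul (x x' : K) (a : ℕ) :
    ValPoly_S x x' a * (x - x') = x ^ a - x' ^ a := by
  induction a with
  | zero => simp [ValPoly_S]
  | succ a ih =>
    have e : ValPoly_S x x' (a + 1) = x ^ a + x' * ValPoly_S x x' a := rfl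
    rw [e]
    linear_combination x' * ih

private theorem ValPoly_S_le (v : Valuation K Γ) {x x' : K} {ρ : Γ} (hx : v x = ρ) (hx' : v x' = ρ)
    (a : ℕ) : v (ValPoly_S x x' (a + 1)) ≤ ρ ^ a := by
  induction a with
  | zero => simp [ValPoly_S]
  | succ a ih =>
    have e : ValPoly_S x x' (a + 1 + 1) = x ^ (a + 1) + x' * ValPoly_S x x' (a + 1) := rfl
    rw [e]
    refine Valuation.map_add_le v ?_ ?_
    · rw [map_pow, hx]
    · rw [map_mul, hx', pow_succ, mul_comm]
      exact mul_le_mul' ih le_rfl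

/-- **Uniqueness of the big root** of `Φ(T,y)`. -/
theorem newton_unique (v : Valuation K Γ) (N : ℕ) (hN : 2 ≤ N) (c : ℕ → ℕ → ℤ)
    (x x' y : K) (h : phiEval N c x y = 0) (h' : phiEval N c x' y = 0) (hy : 1 < v y)
    (hxy : v x = v y ^ N) (hxy' : v x' = v y ^ N) : x = x' := by
  by_contra hne
  have hδ : x - x' ≠ 0 := sub_ne_zero.2 hne
  set A := newtonSimpleCoeff N c y with hA
  set S := ValPoly_S x x' with hS
  have hN0 : N ≠ 0 := by omega
  have hx1 : 1 < v x := by rw [hxy]; exact one_lt_pow₀ hy hN0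
  have hxx' : v x' = v x := by rw [hxy, hxy']
  have hAle : ∀ a, v (A a) ≤ v x := fun a => by
    rw [hxy]; exact newtonSimple_val_coeff v N c y hy a
  have hSle : ∀ a, v (S (a + 1)) ≤ v x ^ a := ValPoly_S_le v rfl hxx'
  have hadd : v (x' + A N) ≤ 1 := newton_add_coeff_le v N hN c x' y h' hy hxy'
  -- the difference of the two equations, divided by `x - x'`
  have h1 : (S (N + 1) + ∑ a ∈ Finset.range (N + 1), A a * S a) * (x - x') = 0 := by
    rw [add_mul, Finset.sum_mul, ValPoly_S_mul]
    have e : ∀ a ∈ Finset.range (N + 1), A a * S a * (x - x') = A a * x ^ a - A a * x' ^ a := by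
      intro a _
      rw [mul_assoc, ValPoly_S_mul, mul_sub]
    rw [Finset.sum_congr rfl e, Finset.sum_sub_distrib]
    rw [newtonSimple_phiEval] at h h'
    linear_combination h - h'
  have h2 : S (N + 1) + ∑ a ∈ Finset.range (N + 1), A a * S a = 0 :=
    (mul_eq_zero.1 h1).resolve_right hδ
  have e1 : S (N + 1) = x ^ N + x' * S N := rfl
  rw [Finset.sum_range_succ, e1] at h2
  have h3 : x ^ N = -((x' + A N) * S N + ∑ a ∈ Finset.range N, A a * S a) := by
    linear_combination h2
  obtain ⟨M, rfl⟩ : ∃ M, N = M + 1 := ⟨N - 1, by omega⟩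
  have h4 : v ((x' + A (M + 1)) * S (M + 1) + ∑ a ∈ Finset.range (M + 1), A a * S a) ≤ v x ^ M := by
    refine Valuation.map_add_le v ?_ (Valuation.map_sum_le v fun a ha => ?_)
    · rw [map_mul]
      calc v (x' + A (M + 1)) * v (S (M + 1)) ≤ 1 * v x ^ M := mul_le_mul' hadd (hSle M)
        _ = v x ^ M := one_mul _
    · rcases a with _ | b
      · have e0 : S 0 = 0 := rfl
        rw [e0, mul_zero, map_zero]
        exact zero_le
      · rw [map_mul]
        have hb : b + 1 ≤ M := by have := Finset.mem_range.1 ha; omega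
        calc v (A (b + 1)) * v (S (b + 1)) ≤ v x * v x ^ b := mul_le_mul' (hAle _) (hSle b)
          _ = v x ^ (b + 1) := by rw [pow_succ, mul_comm]
          _ ≤ v x ^ M := pow_le_pow_right₀ hx1.le hb
  have h5 : v x ^ (M + 1) ≤ v x ^ M := by
    rw [← map_pow v x (M + 1), h3, Valuation.map_neg]
    exact h4
  exact absurd h5 (not_le.2 (pow_lt_pow_right₀ hx1 (Nat.lt_succ_self M)))

end Fermat.Agent.S12.FI.Geo
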