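/-
S12 / FI / GEO (helper228), node GVAL: `|g_∞(y)| > 1` for `y ≠ ∞` near `∞`, `|g_0(y)| > 1` for `y ≠ 0`
near `0`.
-/
import Fermat.Agent.S12.FI.Geo.GReg
import Fermat.Agent.S12.FI.Geo.ValPoly
import Fermat.Agent.S15.A.NearIff

set_option autoImplicit false

noncomputable section

namespace Fermat.Agent.S12.FI.Geo

open Polynomial ModularCurve AlgebraicCurve Fermat.Agent.S24 Fermat.Agent.S27 Fermat.Agent.S37
open Fermat.Agent.S15 Fermat.Agent.S15.A

variable {N : ℕ} [NeZero N] {P : ℤ[X]} {A : ValuationSubring Kbar}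

/-- a place near `∞`, different from `∞`, is not a cusp -/
theorem ord_jF_nonneg_of_nearInf (hN : N.Prime) {y : Place Kbar (FN N)} (hy : NearInf N A y)
    (hy' : y ≠ cuspInf N) : 0 ≤ y.ord (jF N) := by
  by_contra hcon
  rw [not_le] at hcon
  rcases eq_cusp_of_ord_jF_neg N hN y hcon with h | h
  · exact hy' h
  · subst h
    exact not_vInf_of_vZero ((isCusp0_cusp0 N hN).nearZero hN.two_le A) hy

theorem ord_jF_nonneg_of_nearZero (hN : N.Prime) {y : Place Kbar (FN N)} (hy : NearZero N A y)
    (hy' : y ≠ cusp0 N) : 0 ≤ y.ord (jF N) := by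
  by_contra hcon
  rw [not_le] at hcon
  rcases eq_cusp_of_ord_jF_neg N hN y hcon with h | h
  · subst h
    exact not_vInf_of_vZero hy (nearInf_cInf hN.two_le A)
  · exact hy' h

theorem one_lt_val_gInf (hN : N.Prime) (hP : IsPP N P) {y : Place Kbar (FN N)}
    (hy : NearInf N A y) (hy' : y ≠ cuspInf N) : 1 < A.valuation (val y (gInf N P)) := by
  have hreg : 0 ≤ y.ord (gInf N P) :=
    FF.ord_nonneg_of_mem y (gInf_mem_regOff hN hP y (by simpa using hy'))
  rw [← one_lt_comp_iff hreg]
  have hy1 : 1 < (compRing A y).valuation (jF N) := hy.1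
  have hy2 : (compRing A y).valuation (jF N) < (compRing A y).valuation (jN N) := hy.2
  have h1 : 1 < (compRing A y).valuation (jN N) := hy1.trans hy2
  have hPv := valuation_aeval_monic (compRing A y).valuation P hP.1 (jN N) h1
  rw [hP.2.1] at hPv
  have h2 : (compRing A y).valuation (jN N) ≤ (compRing A y).valuation (aeval (jN N) P) := by
    rw [hPv]
    exact le_self_pow₀ h1.le hN.ne_zero
  rw [gInf, Valuation.map_sub_eq_of_lt_right _ (hy2.trans_le h2)]
  exact h1.trans_le h2

theorem one_lt_val_gZero (hN : N.Prime) (hP : IsPP N P) {y : Place Kbar (FN N)}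
    (hy : NearZero N A y) (hy' : y ≠ cusp0 N) : 1 < A.valuation (val y (gZero N P)) := by
  have hreg : 0 ≤ y.ord (gZero N P) :=
    FF.ord_nonneg_of_mem y (gZero_mem_regOff hN hP y (by simpa using hy'))
  rw [← one_lt_comp_iff hreg]
  have hy1 : 1 < (compRing A y).valuation (jF N) := hy.1
  have hy2 : (compRing A y).valuation (jN N) < (compRing A y).valuation (jF N) := hy.2
  have hPv := valuation_aeval_monic (compRing A y).valuation P hP.1 (jF N) hy1
  rw [hP.2.1] at hPv
  have h2 : (compRing A y).valuation (jF N) ≤ (compRing A y).valuation (aeval (jF N) P) := by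
    rw [hPv]
    exact le_self_pow₀ hy1.le hN.ne_zero
  rw [gZero, Valuation.map_sub_eq_of_lt_right _ (hy2.trans_le h2)]
  exact hy1.trans_le h2

end Fermat.Agent.S12.FI.Geo

end
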