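/-
S12 / FI / GEO (helper228), node CORR: the corrections (step (C) of the blueprint).
If `div S = D₁ + D₀` with `D₁` principal and supported near `∞`, `D₀` supported near `0`, then
`X X' = S P P'` with `X, P` regular off `∞`, `X', P'` regular off `0`, `P ≡ P' ≡ 1`, and `X'` is
invertible modulo `𝔪` in the functions regular off `0`.
-/
import Fermat.Agent.S12.FI.Geo.Clear
import Fermat.Agent.S12.FI.Geo.GVal
import Fermat.Agent.S12.FI.Geo.Compat

set_option autoImplicit false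

noncomputable section

namespace Fermat.Agent.S12.FI.Geo

open ModularCurve AlgebraicCurve Fermat.Agent.S24 Fermat.Agent.S27 Fermat.Agent.S37
open Fermat.Agent.S15 Fermat.Agent.S15.A

variable {N : ℕ} [NeZero N] {A : ValuationSubring Kbar}

open scoped Classical in
/-- one chart: `h` has divisor `D`, and `|g(y)| > 1` at the places `y ≠ c` of the support of `D`;
then `h * corrF` is regular off `c` -/
theorem corr_chart {c : Place Kbar (FN N)} {g h : FN N} {D : Divisor Kbar (FN N)}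
    (hg : g ∈ regOff {c}) (hD : IsDivOf D h)
    (hval : ∀ y, D y ≠ 0 → y ≠ c → 1 < A.valuation (val y g)) :
    h * corrF g (D.support.erase c) (fun y => (-D y).toNat) ∈ regOff {c} := by
  refine mul_corrF_mem_regOff hg h fun y hy hneg => ?_
  have hyc : y ≠ c := fun e => hy (by rw [e]; exact Set.mem_singleton c)
  have hDy : D y ≠ 0 := by rw [hD.2 y]; exact hneg.ne
  refine ⟨Finset.mem_erase.2 ⟨hyc, Finsupp.mem_support_iff.2 hDy⟩, ?_, ?_⟩
  · intro h0
    have := hval y hDy hyc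
    rw [h0, map_zero] at this
    exact absurd this (not_lt.2 zero_le_one)
  · rw [hD.2 y, Int.toNat_of_nonneg (by omega)]
    omega

open scoped Classical in
theorem lt_one_corr_chart {c : Place Kbar (FN N)} {g : FN N} {D : Divisor Kbar (FN N)}
    (hgi : Le A 1 (g : LaurentSeries Kbar))
    (hval : ∀ y, D y ≠ 0 → y ≠ c → 1 < A.valuation (val y g)) (n : Place Kbar (FN N) → ℕ) :
    Lt A 1 ((corrF g (D.support.erase c) n : FN N) - 1 : LaurentSeries Kbar) :=
  lt_one_corrF hgi fun y hy =>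
    hval y (Finsupp.mem_support_iff.1 (Finset.mem_of_mem_erase hy)) (Finset.ne_of_mem_erase hy)

/-- **The corrections.** -/
theorem corr (hN : N.Prime) (S : FN N) (D₁ D₀ : Divisor Kbar (FN N)) (h₁ : D₁ ∈ DInf N A)
    (h₀ : D₀ ∈ DZero N A) (hp : D₁ ∈ Divisor.principal (K := Kbar) (F := FN N))
    (hS : IsDivOf (D₁ + D₀) S) :
    ∃ X P X' P' Z : LaurentSeries Kbar, X ∈ Rinf N ∧ P ∈ Rinf N ∧ X' ∈ Rzero N ∧ P' ∈ Rzero N ∧
      Z ∈ Rzero N ∧ Lt A 1 (P - 1) ∧ Lt A 1 (P' - 1) ∧ Lt A 1 (Z * X' - 1) ∧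
      X * X' = (S : LaurentSeries Kbar) * (P * P') := by
  classical
  obtain ⟨Q, hQ⟩ := exists_isPP N
  obtain ⟨h, hh⟩ := mem_principal_iff.1 hp
  have hh0 : h ≠ 0 := hh.1
  -- the second factor
  have hh' : IsDivOf D₀ (S * h⁻¹) := by
    have := IsDivOf.mul' hS (IsDivOf.inv' hh)
    rwa [add_assoc, add_comm D₀, ← add_assoc, add_neg_cancel, zero_add] at this
  have hh'inv : IsDivOf (-D₀) (S * h⁻¹)⁻¹ := IsDivOf.inv' hh'
  have hv₁ : ∀ y, D₁ y ≠ 0 → y ≠ cuspInf N → 1 < A.valuation (val y (gInf N Q)) :=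
    fun y hy hyc => one_lt_val_gInf hN hQ (h₁ y hy) hyc
  have hv₀ : ∀ y, D₀ y ≠ 0 → y ≠ cusp0 N → 1 < A.valuation (val y (gZero N Q)) :=
    fun y hy hyc => one_lt_val_gZero hN hQ (h₀ y hy) hyc
  have hv₀' : ∀ y, (-D₀) y ≠ 0 → y ≠ cusp0 N → 1 < A.valuation (val y (gZero N Q)) := by
    intro y hy hyc
    refine hv₀ y (fun h0 => hy ?_) hyc
    rw [Finsupp.neg_apply, h0, neg_zero]
  set P : FN N := corrF (gInf N Q) (D₁.support.erase (cuspInf N)) (fun y => (-D₁ y).toNat) with hP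
  set P' : FN N := corrF (gZero N Q) (D₀.support.erase (cusp0 N)) (fun y => (-D₀ y).toNat) with hP'
  set P'' : FN N := corrF (gZero N Q) ((-D₀).support.erase (cusp0 N))
    (fun y => (-(-D₀) y).toNat) with hP''
  have hS0 : S * h⁻¹ ≠ 0 := hh'.1
  refine ⟨toL N (h * P), toL N P, toL N (S * h⁻¹ * P'), toL N P', toL N ((S * h⁻¹)⁻¹ * P''),
    ⟨_, corr_chart (gInf_mem_regOff hN hQ) hh hv₁, rfl⟩,
    ⟨_, corrF_mem_regOff (gInf_mem_regOff hN hQ), rfl⟩,
    ⟨_, corr_chart (gZero_mem_regOff hN hQ) hh' hv₀, rfl⟩,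
    ⟨_, corrF_mem_regOff (gZero_mem_regOff hN hQ), rfl⟩,
    ⟨_, corr_chart (gZero_mem_regOff hN hQ) hh'inv hv₀', rfl⟩,
    lt_one_corr_chart (le_one_gInf A Q) hv₁ _, lt_one_corr_chart (le_one_gZero A Q) hv₀ _, ?_, ?_⟩
  · have e : toL N ((S * h⁻¹)⁻¹ * P'') * toL N (S * h⁻¹ * P') = toL N P'' * toL N P' := by
      rw [← map_mul, ← map_mul]
      congr 1
      calc (S * h⁻¹)⁻¹ * P'' * (S * h⁻¹ * P') = ((S * h⁻¹)⁻¹ * (S * h⁻¹)) * (P'' * P') := by ring
        _ = P'' * P' := by rw [inv_mul_cancel₀ hS0, one_mul]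
    rw [e]
    exact lt_one_mul (lt_one_corr_chart (le_one_gZero A Q) hv₀' _)
      (lt_one_corr_chart (le_one_gZero A Q) hv₀ _)
  · have e : toL N (h * P) * toL N (S * h⁻¹ * P') = toL N S * (toL N P * toL N P') := by
      rw [← map_mul, ← map_mul, ← map_mul]
      congr 1
      calc h * P * (S * h⁻¹ * P') = (h * h⁻¹) * (S * (P * P')) := by ring
        _ = S * (P * P') := by rw [mul_inv_cancel₀ hh0, one_mul]
    exact e

end Fermat.Agent.S12.FI.Geo

end
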