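/-
S12 / FI / GEO (helper228), node ORDONE: companion of `S15.Dict.place_unique(_of_simple)`: at a point
`(a,b)` of the curve `Φ(X,Y) = 0` at which `a` is a simple root of `Φ(T,b)`, the function `Y - b` is a
local parameter.
-/
import Fermat.Agent.S15.Dict.Uniq2

set_option autoImplicit false

namespace Fermat.Agent.S12.FI.Geo

open AlgebraicCurve Polynomial Fermat.Agent.S24 Fermat.Agent.S37 Fermat.Agent.S15.Dict

variable {K F : Type*} [Field K] [Field F] [Algebra K F]

theorem ord_eq_one_of_rel (X Y : F) (htop : IntermediateField.adjoin K {X, Y} = ⊤) (a b : K)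
    (g h : F) (hg0 : g ≠ 0)
    (hg : g ∈ Algebra.adjoin K {X, Y}) (hh : h ∈ Algebra.adjoin K {X, Y})
    (hrel : g * (X - algebraMap K F a) = (Y - algebraMap K F b) * h)
    (v : Place K F)
    (hvX : 0 < v.ord (X - algebraMap K F a)) (hvY : 0 < v.ord (Y - algebraMap K F b))
    (hvg : v.ord g = 0) : v.ord (Y - algebraMap K F b) = 1 := by
  have hπ0 : Y - algebraMap K F b ≠ 0 := FF.ne_zero_of_ord_ne_zero v hvY.ne'
  have hadj : ∀ r ∈ Algebra.adjoin K ({X, Y} : Set F), r ≠ 0 →
      v.ord (Y - algebraMap K F b) ∣ v.ord r := by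
    intro r hr hr0
    obtain ⟨m, u, u', hu, hu', e, h1, h2, -, -⟩ :=
      exists_pow_mul_unit X Y a b g h hg0 hg hh hrel v v hvX hvY hvg hvX hvY hvg r hr hr0
    have b1 := congrArg v.ord e
    rw [v.ord_mul hu' hr0, v.ord_mul (pow_ne_zero _ hπ0) hu, FF.ord_pow, h1, h2, zero_add,
      add_zero] at b1
    rw [b1]
    exact Dvd.intro_left _ rfl
  have hclaim : ∀ f : F, f ≠ 0 → v.ord (Y - algebraMap K F b) ∣ v.ord f := by
    intro f hf0
    have hf : f ∈ IntermediateField.adjoin K {X, Y} := by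
      rw [htop]
      exact IntermediateField.mem_top
    obtain ⟨r, hr, s, hs, rfl⟩ := IntermediateField.mem_adjoin_iff_div.1 hf
    have hr0 : r ≠ 0 := by
      rintro rfl
      exact hf0 (zero_div _)
    have hs0 : s ≠ 0 := by
      rintro rfl
      exact hf0 (div_zero _)
    rw [div_eq_mul_inv, v.ord_mul hr0 (inv_ne_zero hs0), v.ord_inv]
    exact dvd_add (hadj r hr hr0) ((dvd_neg).2 (hadj s hs hs0))
  obtain ⟨π, hπ⟩ := FF.exists_ord_eq_one v
  have hπ1 : π ≠ 0 := FF.ne_zero_of_ord_ne_zero v (by rw [hπ]; exact one_ne_zero)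
  have hd := hclaim π hπ1
  rw [hπ] at hd
  exact Int.eq_one_of_dvd_one hvY.le hd

/-- an element congruent to a nonzero constant is a unit at the place -/
private theorem OrdOne_ord_eq_zero_of_van_sub (v : Place K F) {g : F} {c : K} (hc : c ≠ 0)
    (h : Van v (g - algebraMap K F c)) : g ≠ 0 ∧ v.ord g = 0 := by
  have hcF : algebraMap K F c ≠ 0 := (_root_.map_ne_zero _).2 hc
  constructor
  · rintro rfl
    rw [zero_sub] at h
    have := h.neg
    rw [neg_neg] at this
    exact hc (van_algebraMap_iff.1 this)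
  · rcases h with h | h
    · rw [sub_eq_zero.1 h]
      exact FF.ord_algebraMap v c
    · have h2 : v.ord (algebraMap K F c) < v.ord (g - algebraMap K F c) := by
        rw [FF.ord_algebraMap]
        exact h
      have h3 := FF.ord_add_eq_of_lt v hcF h2
      rw [add_sub_cancel, FF.ord_algebraMap] at h3
      exact h3

theorem ord_eq_one_of_simple (X Y : F) (htop : IntermediateField.adjoin K {X, Y} = ⊤)
    (N : ℕ) (c : ℕ → ℕ → ℤ) (hrel : phiEval N c X Y = 0) (a b : K)
    (hs : (derivative (phiPoly N c b)).eval a ≠ 0) (v : Place K F)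
    (hvX : 0 < v.ord (X - algebraMap K F a)) (hvY : 0 < v.ord (Y - algebraMap K F b)) :
    v.ord (Y - algebraMap K F b) = 1 := by
  set r : K[X] := phiPoly N c b with hr
  have hroot : r.IsRoot a := by
    show r.eval a = 0
    rw [hr, eval_phiPoly]
    exact phiEval_eq_zero_of_van N c X Y hrel a b v (Or.inr hvX) (Or.inr hvY)
  set G : K[X] := r /ₘ (Polynomial.X - C a) with hG
  have hrG : (Polynomial.X - C a) * G = r := mul_divByMonic_eq_iff_isRoot.2 hroot
  have hGa : G.eval a ≠ 0 := by
    intro h0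
    apply hs
    rw [← hrG, derivative_mul, eval_add, eval_mul, eval_mul, h0, eval_sub, eval_X, eval_C,
      sub_self, mul_zero, zero_mul, add_zero]
  obtain ⟨h, hh, e⟩ := exists_phiEval_sub N c X Y b
  have hg : aeval X G ∈ Algebra.adjoin K ({X, Y} : Set F) :=
    Algebra.adjoin_mono (Set.singleton_subset_iff.2 (Set.mem_insert _ _))
      (aeval_mem_adjoin_singleton K X)
  have hrel' : aeval X G * (X - algebraMap K F a) = (Y - algebraMap K F b) * (-h) := by
    have h1 := congrArg (aeval X) hrG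
    rw [map_mul, map_sub, aeval_X, aeval_C, hr, aeval_phiPoly] at h1
    rw [hrel] at e
    rw [mul_comm, h1, mul_neg, ← e]
    ring
  obtain ⟨hg0, hvg⟩ := OrdOne_ord_eq_zero_of_van_sub v hGa (van_aeval_sub v X a (Or.inr hvX) G)
  exact ord_eq_one_of_rel X Y htop a b (aeval X G) (-h) hg0 hg (neg_mem hh) hrel' v hvX hvY hvg

end Fermat.Agent.S12.FI.Geo
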