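/-
S12 / FI / GEO (helper228), node FIBRE: over a value `c` of `j` with `|c| > 1` there is exactly one
place near `∞`, and `j - c` is a local parameter there.  (Step (V) of the blueprint.)
-/
import Fermat.Agent.S12.FI.Geo.ValPoly
import Fermat.Agent.S12.FI.Geo.OrdOne
import Fermat.Agent.S12.FI.Geo.GReg
import Fermat.Agent.S15.Dict.Fixed
import Fermat.Agent.S15.A.NearIff

set_option autoImplicit false

noncomputable section

namespace Fermat.Agent.S12.FI.Geo

open Polynomial ModularCurve AlgebraicCurve Fermat.Agent.S24 Fermat.Agent.S27 Fermat.Agent.S37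
open Fermat.Agent.S15 Fermat.Agent.S15.A Fermat.Agent.S15.Dict Fermat.Agent.Lib.ModEq

variable {N : ℕ} [NeZero N] {A : ValuationSubring Kbar}

/-- the modular equation, `j_N` first -/
theorem phiEval_jN_jF (hN : N.Prime) : phiEval N (cPhi N) (jN N) (jF N) = 0 := by
  sorry

theorem adjoin_jN_jF (hN : N.Prime) : IntermediateField.adjoin Kbar {jN N, jF N} = ⊤ := by
  sorry

/-- the values of `j`, `j_N` at a non cuspidal place near `∞` -/
theorem val_of_nearInf (hN : N.Prime) {x : Place Kbar (FN N)} (hx : NearInf N A x)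
    (hx0 : 0 ≤ x.ord (jF N)) :
    phiEval N (cPhi N) (val x (jN N)) (val x (jF N)) = 0 ∧ 1 < A.valuation (val x (jF N)) ∧
      A.valuation (val x (jN N)) = A.valuation (val x (jF N)) ^ N := by
  sorry

theorem ord_sub_val_pos {x : Place Kbar (FN N)} (d : ℕ) [NeZero d] (hd : d ∣ N)
    (h : 0 ≤ x.ord (JF N d hd)) :
    0 < x.ord (JF N d hd - algebraMap Kbar (FN N) (val x (JF N d hd))) := by
  sorry

/-- **Uniqueness** of the place near `∞` with a given value of `j`. -/
theorem fibre_unique (hN : N.Prime) {x y : Place Kbar (FN N)} (hx : NearInf N A x)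
    (hy : NearInf N A y) (hx0 : 0 ≤ x.ord (jF N)) (hy0 : 0 ≤ y.ord (jF N))
    (h : val x (jF N) = val y (jF N)) : x = y := by
  sorry

/-- `j - j(x)` is a local parameter at a non cuspidal place near `∞`. -/
theorem ord_jF_sub_eq_one (hN : N.Prime) {x : Place Kbar (FN N)} (hx : NearInf N A x)
    (hx0 : 0 ≤ x.ord (jF N)) : x.ord (jF N - algebraMap Kbar (FN N) (val x (jF N))) = 1 := by
  sorry

end Fermat.Agent.S12.FI.Geo

end
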