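/-
S12 / FI / GEO (helper228), node SUPP: elementary facts on `suppOn`.
-/
import Fermat.Agent.S12.FI.Geo.Defs

set_option autoImplicit false

noncomputable section

namespace Fermat.Agent.S12.FI.Geo

open ModularCurve AlgebraicCurve Fermat.Agent.S24 Fermat.Agent.S27 Fermat.Agent.S37

variable {N : ℕ} {p q : Place Kbar (FN N) → Prop}

theorem single_mem_suppOn {v : Place Kbar (FN N)} (hv : p v) (n : ℤ) :
    (Finsupp.single v n : Divisor Kbar (FN N)) ∈ suppOn p := by
  classical
  intro w hw
  by_cases h : v = w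
  · exact h ▸ hv
  · exact absurd (Finsupp.single_eq_of_ne' h) hw

theorem pt_mem_suppOn {v : Place Kbar (FN N)} (hv : p v) : pt v ∈ suppOn p :=
  single_mem_suppOn hv 1

theorem suppOn_mono (h : ∀ v, p v → q v) : suppOn p ≤ suppOn q := fun _ hD v hv => h v (hD v hv)

/-- an additive map sending the points of `p` into `suppOn q` sends `suppOn p` into `suppOn q` -/
theorem map_mem_suppOn (t : Divisor Kbar (FN N) →+ Divisor Kbar (FN N))
    (h : ∀ v, p v → t (pt v) ∈ suppOn q) {D : Divisor Kbar (FN N)} (hD : D ∈ suppOn p) :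
    t D ∈ suppOn q := by
  classical
  have e : D = D.sum fun v n => n • pt v := by
    conv_lhs => rw [← Finsupp.sum_single D]
    refine Finsupp.sum_congr fun v _ => ?_
    change _ = D v • Finsupp.single v (1 : ℤ)
    rw [Finsupp.smul_single, smul_eq_mul, mul_one]
  rw [e, Finsupp.sum, map_sum]
  refine AddSubgroup.sum_mem _ fun v hv => ?_
  rw [map_zsmul]
  exact AddSubgroup.zsmul_mem _ (h v (hD v (Finsupp.mem_support_iff.1 hv))) _

/-- a divisor in `suppOn p` and in `suppOn q` is zero if `p`, `q` are incompatible -/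
theorem eq_zero_of_mem_suppOn (h : ∀ v, p v → ¬ q v) {D : Divisor Kbar (FN N)} (hD : D ∈ suppOn p)
    (hD' : D ∈ suppOn q) : D = 0 := by
  ext v
  by_contra hv
  exact h v (hD v hv) (hD' v hv)

end Fermat.Agent.S12.FI.Geo

end
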