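/-
S12 / FI / GEO (helper228), node DIVSX: `div (1 - j / j(x)) = (x) - (∞) + E`, `E` supported near `0`.
-/
import Fermat.Agent.S12.FI.Geo.Fibre
import Fermat.Agent.S12.FI.Geo.GVal
import Fermat.Agent.S12.FI.Geo.Supp

set_option autoImplicit false

noncomputable section

namespace Fermat.Agent.S12.FI.Geo

open ModularCurve AlgebraicCurve Fermat.Agent.S24 Fermat.Agent.S27 Fermat.Agent.S37
open Fermat.Agent.S15 Fermat.Agent.S15.A

variable {N : ℕ} [NeZero N] {A : ValuationSubring Kbar}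

theorem sx_eq {c : Kbar} (hc : c ≠ 0) :
    sx N c⁻¹ = algebraMap Kbar (FN N) (-c⁻¹) * (jF N - algebraMap Kbar (FN N) c) := by
  sorry

theorem sx_ne_zero (τ : Kbar) : sx N τ ≠ 0 := by
  sorry

theorem ax_ne_zero (τ : Kbar) : ax N τ ≠ 0 := by
  sorry

/-- the order of `1 - j / c` at a place where `j` is regular -/
theorem ord_sx_of_nonneg {c : Kbar} (hc : c ≠ 0) (v : Place Kbar (FN N)) :
    v.ord (sx N c⁻¹) = v.ord (jF N - algebraMap Kbar (FN N) c) := by
  sorry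

/-- the order of `1 - j / c` at a pole of `j` -/
theorem ord_sx_of_neg {c : Kbar} (hc : c ≠ 0) {v : Place Kbar (FN N)} (hv : v.ord (jF N) < 0) :
    v.ord (sx N c⁻¹) = v.ord (jF N) := by
  sorry

/-- a zero of `1 - j / c` -/
theorem val_eq_of_ord_sx_pos {c : Kbar} (hc : c ≠ 0) {v : Place Kbar (FN N)}
    (hv : 0 < v.ord (sx N c⁻¹)) : 0 ≤ v.ord (jF N) ∧ val v (jF N) = c := by
  sorry

/-- **The divisor of `1 - j / j(x)`.** -/
theorem div_sx (hN : N.Prime) {x : Place Kbar (FN N)} (hx : NearInf N A x)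
    (hx0 : 0 ≤ x.ord (jF N)) :
    ∃ E ∈ DZero N A, IsDivOf (pt x - pt (cuspInf N) + E) (sx N (val x (jF N))⁻¹) := by
  sorry

end Fermat.Agent.S12.FI.Geo

end
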