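/-
S12 / FI / GEO (helper228), node WSWAP: the Fricke involution exchanges the two neighbourhoods of the
cusps; divisors of `w f`.
-/
import Fermat.Agent.S12.FI.Geo.Supp
import Fermat.Agent.S12.FI.Geo.GReg

set_option autoImplicit false

noncomputable section

namespace Fermat.Agent.S12.FI.Geo

open ModularCurve AlgebraicCurve Fermat.Agent.S24 Fermat.Agent.S27 Fermat.Agent.S37
open Fermat.Agent.S15 Fermat.Agent.S15.A

variable {N : ℕ} [NeZero N] {A : ValuationSubring Kbar}

theorem wPl_wPl (v : Place Kbar (FN N)) : wPl N (wPl N v) = v := by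
  sorry

theorem wPl_cuspInf : wPl N (cuspInf N) = cusp0 N := rfl

theorem wPl_cusp0 : wPl N (cusp0 N) = cuspInf N := wPl_wPl _

theorem ord_wPl (v : Place Kbar (FN N)) (f : FN N) : (wPl N v).ord f = v.ord (wN N f) := by
  sorry

theorem val_wPl (v : Place Kbar (FN N)) (f : FN N) : val (wPl N v) f = val v (wN N f) := by
  sorry

/-- the composite valuation ring of `w v` -/
theorem compRing_wPl (v : Place Kbar (FN N)) :
    compRing A (wPl N v) = (compRing A v).comap ((wN N : FN N ≃ₐ[Kbar] FN N) : FN N →+* FN N) := by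
  sorry

theorem nearInf_wPl (hN : N.Prime) {v : Place Kbar (FN N)} (h : NearZero N A v) :
    NearInf N A (wPl N v) := by
  sorry

theorem nearZero_wPl (hN : N.Prime) {v : Place Kbar (FN N)} (h : NearInf N A v) :
    NearZero N A (wPl N v) := by
  sorry

theorem wDiv_pt (v : Place Kbar (FN N)) : wDiv N (pt v) = pt (wPl N v) := by
  sorry

theorem wDiv_add (D E : Divisor Kbar (FN N)) : wDiv N (D + E) = wDiv N D + wDiv N E :=
  smul_add _ _ _

theorem wDiv_sub (D E : Divisor Kbar (FN N)) : wDiv N (D - E) = wDiv N D - wDiv N E :=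
  smul_sub _ _ _

theorem degree_wDiv (D : Divisor Kbar (FN N)) : Divisor.degree (wDiv N D) = Divisor.degree D := by
  sorry

theorem wDiv_mem_DInf (hN : N.Prime) {D : Divisor Kbar (FN N)} (h : D ∈ DZero N A) :
    wDiv N D ∈ DInf N A := by
  sorry

theorem wDiv_mem_DZero (hN : N.Prime) {D : Divisor Kbar (FN N)} (h : D ∈ DInf N A) :
    wDiv N D ∈ DZero N A := by
  sorry

theorem isDivOf_wN {D : Divisor Kbar (FN N)} {f : FN N} (h : IsDivOf D f) :
    IsDivOf (wDiv N D) (wN N f) := by
  sorry

theorem wN_sx (τ : Kbar) : wN N (sx N τ) = ax N τ := by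
  sorry

end Fermat.Agent.S12.FI.Geo

end
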