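/-
S12 / FI / GEO (helper228), node DEC: the decomposition of the divisor (step (D) of the blueprint).
`x` near `∞`, non cuspidal, `τ = 1 / j(x)`, `s_x = 1 - τ j`, `A_x = 1 - τ j_N`.  If `M` kills the class
`t₁ [(x) - (∞)] + t₂ [(w x) - (0)]` then `div ((t₁ s_x / t₂ A_x) ^ M) = D₁ + D₀` with `D₁` principal
and supported near `∞`, `D₀` supported near `0`.
-/
import Fermat.Agent.S12.FI.Geo.DivSx
import Fermat.Agent.S12.FI.Geo.WSwap
import Fermat.Agent.S12.FI.Geo.Compat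

set_option autoImplicit false

noncomputable section

namespace Fermat.Agent.S12.FI.Geo

open ModularCurve AlgebraicCurve Fermat.Agent.S24 Fermat.Agent.S27 Fermat.Agent.S37
open Fermat.Agent.S15 Fermat.Agent.S15.A

variable {N : ℕ} [NeZero N] {A : ValuationSubring Kbar}

theorem cls_nsmul' {D : Divisor Kbar (FN N)} (hD : Divisor.degree D = 0) (n : ℕ) :
    cls (n • D) = n • cls D := by
  induction n with
  | zero => rw [zero_smul, cls_zero, zero_nsmul]
  | succ n ih =>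
    rw [succ_nsmul, succ_nsmul, cls_add (by rw [map_nsmul, hD, smul_zero]) hD, ih]

theorem isDivOf_nsmul {D : Divisor Kbar (FN N)} {u : Additive (FN N)ˣ}
    (h : IsDivOf D ((Additive.toMul u : (FN N)ˣ) : FN N)) (n : ℕ) :
    IsDivOf (n • D) ((Additive.toMul (n • u) : (FN N)ˣ) : FN N) := by
  induction n with
  | zero =>
    rw [zero_smul, zero_smul]
    exact isDivOf_one
  | succ n ih =>
    rw [succ_nsmul, succ_nsmul, toMul_add, Units.val_mul]
    exact IsDivOf.mul' ih h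

theorem isDivOf_sub {D E : Divisor Kbar (FN N)} {u w : Additive (FN N)ˣ}
    (h : IsDivOf D ((Additive.toMul u : (FN N)ˣ) : FN N))
    (h' : IsDivOf E ((Additive.toMul w : (FN N)ˣ) : FN N)) :
    IsDivOf (D - E) ((Additive.toMul (u - w) : (FN N)ˣ) : FN N) := by
  rw [sub_eq_add_neg, sub_eq_add_neg, toMul_add, toMul_neg, Units.val_mul,
    Units.val_inv_eq_inv_val]
  exact IsDivOf.mul' h (IsDivOf.inv' h')

/-- **The decomposition.** -/
theorem dec (hN : N.Prime) {x : Place Kbar (FN N)} (hx : NearInf N A x) (hx0 : 0 ≤ x.ord (jF N))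
    {t₁J t₂J : AddMonoid.End (JZero N)} {t₁D t₂D : AddMonoid.End (Divisor Kbar (FN N))}
    {t₁U t₂U : AddMonoid.End (Additive (FN N)ˣ)} (h₁ : Compat N A t₁J t₁D t₁U)
    (h₂ : Compat N A t₂J t₂D t₂U) (u₁ u₂ : (FN N)ˣ)
    (hu₁ : (u₁ : FN N) = sx N (val x (jF N))⁻¹) (hu₂ : (u₂ : FN N) = ax N (val x (jF N))⁻¹)
    (M : ℕ)
    (hM : M • (t₁J (cls (pt x - pt (cuspInf N))) + t₂J (cls (pt (wPl N x) - pt (cusp0 N)))) = 0) :
    ∃ D₁ ∈ DInf N A, ∃ D₀ ∈ DZero N A, D₁ ∈ Divisor.principal (K := Kbar) (F := FN N) ∧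
      IsDivOf (D₁ + D₀) ((Additive.toMul
        (M • (t₁U (Additive.ofMul u₁) - t₂U (Additive.ofMul u₂))) : (FN N)ˣ) : FN N) := by
  obtain ⟨E, hE, hdiv⟩ := div_sx hN hx hx0
  set Dx : Divisor Kbar (FN N) := pt x - pt (cuspInf N) with hDx
  set Dx' : Divisor Kbar (FN N) := pt (wPl N x) - pt (cusp0 N) with hDx'
  set E' : Divisor Kbar (FN N) := wDiv N E with hE'
  have hdegDx : Divisor.degree Dx = 0 := degree_pt_sub_pt _ _
  have hdegDx' : Divisor.degree Dx' = 0 := degree_pt_sub_pt _ _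
  have hdegE : Divisor.degree E = 0 := by
    have := hdiv.degree
    rwa [map_add, hdegDx, zero_add] at this
  have hdegE' : Divisor.degree E' = 0 := by rw [hE', degree_wDiv, hdegE]
  -- the divisor of `A_x`
  have hdiv' : IsDivOf (Dx' + E') (ax N (val x (jF N))⁻¹) := by
    have := isDivOf_wN hdiv
    rwa [wN_sx, wDiv_add, hDx, wDiv_sub, wDiv_pt, wDiv_pt, wPl_cuspInf] at this
  -- memberships
  have hDxI : Dx ∈ DInf N A :=
    (DInf N A).sub_mem (pt_mem_suppOn hx) (pt_mem_suppOn (nearInf_cInf hN.two_le A))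
  have hDx'Z : Dx' ∈ DZero N A :=
    (DZero N A).sub_mem (pt_mem_suppOn (nearZero_wPl hN hx))
      (pt_mem_suppOn ((isCusp0_cusp0 N hN).nearZero hN.two_le A))
  have hE'I : E' ∈ DInf N A := wDiv_mem_DInf hN hE
  -- the divisors of the two functions
  have hd₁ : IsDivOf (t₁D (Dx + E)) ((Additive.toMul (t₁U (Additive.ofMul u₁)) : (FN N)ˣ) : FN N) :=
    h₁.div _ _ (by rw [toMul_ofMul, hu₁]; exact hdiv)
  have hd₂ : IsDivOf (t₂D (Dx' + E')) ((Additive.toMul (t₂U (Additive.ofMul u₂)) : (FN N)ˣ) : FN N) :=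
    h₂.div _ _ (by rw [toMul_ofMul, hu₂]; exact hdiv')
  have hd := isDivOf_nsmul (isDivOf_sub hd₁ hd₂) M
  refine ⟨M • (t₁D Dx - t₂D E'), (DInf N A).nsmul_mem
      ((DInf N A).sub_mem (h₁.inf _ hDxI) (h₂.inf _ hE'I)) M,
    M • (t₁D E - t₂D Dx'), (DZero N A).nsmul_mem
      ((DZero N A).sub_mem (h₁.zero _ hE) (h₂.zero _ hDx'Z)) M, ?_, ?_⟩
  · -- principal
    have hdeg : Divisor.degree (t₁D Dx - t₂D E') = 0 := by
      rw [map_sub, h₁.deg _ hdegDx, h₂.deg _ hdegE', sub_zero]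
    rw [← cls_eq_zero_iff (by rw [map_nsmul, hdeg, smul_zero]), cls_nsmul' hdeg,
      cls_sub (h₁.deg _ hdegDx) (h₂.deg _ hdegE'), ← h₁.cls _ hdegDx, ← h₂.cls _ hdegE']
    have hcE' : cls E' = - cls Dx' := by
      have h0 : cls (Dx' + E') = 0 :=
        (cls_eq_zero_iff (by rw [map_add, hdegDx', hdegE', add_zero])).2
          (mem_principal_iff.2 ⟨_, hdiv'⟩)
      rw [cls_add hdegDx' hdegE'] at h0
      exact eq_neg_of_add_eq_zero_right h0
    rw [hcE', map_neg, sub_neg_eq_add]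
    exact hM
  · have e : M • (t₁D Dx - t₂D E') + M • (t₁D E - t₂D Dx') =
        M • (t₁D (Dx + E) - t₂D (Dx' + E')) := by
      rw [← smul_add, map_add, map_add]
      congr 1
      abel
    rw [e]
    exact hd

end Fermat.Agent.S12.FI.Geo

end
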