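/-
S12 / FI / GEO (helper228), node HECKE: the Hecke operators `T_p` (`p` prime, `p ≠ N`) form a
compatible triple.
-/
import Fermat.Agent.S12.FI.Geo.Supp
import Fermat.Agent.S15.A.Hecke.Orbit

set_option autoImplicit false

noncomputable section

namespace Fermat.Agent.S12.FI.Geo

open ModularCurve AlgebraicCurve Fermat.Agent.S24 Fermat.Agent.S27 Fermat.Agent.S37
open Fermat.Agent.S15 Fermat.Agent.S15.A Fermat.Agent.S37.HeckeInputs

variable {N : ℕ} [NeZero N] {A : ValuationSubring Kbar}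

theorem heckeDiv_pt_mem_DInf (hN : N.Prime) {p : ℕ} [NeZero p] (hp : p.Prime) (hpN : p ≠ N)
    {v : Place Kbar (FN N)} (hv : NearInf N A v) : heckeDiv N p (pt v) ∈ DInf N A := by
  sorry

theorem heckeDiv_pt_mem_DZero (hN : N.Prime) {p : ℕ} [NeZero p] (hp : p.Prime) (hpN : p ≠ N)
    {v : Place Kbar (FN N)} (hv : NearZero N A v) : heckeDiv N p (pt v) ∈ DZero N A := by
  sorry

theorem Tp_cls' {p : ℕ} [NeZero p] {D : Divisor Kbar (FN N)} (hD : Divisor.degree D = 0) :
    Tp N p (cls D) = cls (heckeDiv N p D) := by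
  sorry

/-- **The Hecke operators are compatible triples.** -/
theorem compat_hecke (hN : N.Prime) {p : ℕ} (hp : p.Prime) (hpN : p ≠ N) :
    Compat N A (Tp N p) (TD N p) (TU N p) := by
  sorry

end Fermat.Agent.S12.FI.Geo

end
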