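/-
S12 / FI / GEO (helper228): the final theorem of the block GEO = steps (V), (D), (C) of the blueprint
#1479: the geometric input of `FI.core''`.
-/
import Fermat.Agent.S12.FI.Geo.Dec
import Fermat.Agent.S12.FI.Geo.Corr
import Fermat.Agent.S12.FI.Geo.HeckeCompat

set_option autoImplicit false

noncomputable section

namespace Fermat.Agent.S12.FI.Geo

open ModularCurve AlgebraicCurve Fermat.Agent.S24 Fermat.Agent.S27 Fermat.Agent.S37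
open Fermat.Agent.S15 Fermat.Agent.S15.A

variable {N : ℕ} [NeZero N] {A : ValuationSubring Kbar}

/-- **GEO.** -/
theorem geo (hN : N.Prime) {x : Place Kbar (FN N)} (hx : NearInf N A x) (hx0 : 0 ≤ x.ord (jF N))
    {t₁J t₂J : AddMonoid.End (JZero N)} {t₁D t₂D : AddMonoid.End (Divisor Kbar (FN N))}
    {t₁U t₂U : AddMonoid.End (Additive (FN N)ˣ)} (h₁ : Compat N A t₁J t₁D t₁U)
    (h₂ : Compat N A t₂J t₂D t₂U) (u₁ u₂ : (FN N)ˣ)
    (hu₁ : (u₁ : FN N) = sx N (val x (jF N))⁻¹) (hu₂ : (u₂ : FN N) = ax N (val x (jF N))⁻¹)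
    (M : ℕ)
    (hM : M • (t₁J (cls (pt x - pt (cuspInf N))) + t₂J (cls (pt (wPl N x) - pt (cusp0 N)))) = 0) :
    ∃ X P X' P' Z : LaurentSeries Kbar, X ∈ Rinf N ∧ P ∈ Rinf N ∧ X' ∈ Rzero N ∧ P' ∈ Rzero N ∧
      Z ∈ Rzero N ∧ Lt A 1 (P - 1) ∧ Lt A 1 (P' - 1) ∧ Lt A 1 (Z * X' - 1) ∧
      X * X' = (((Additive.toMul (M • (t₁U (Additive.ofMul u₁) - t₂U (Additive.ofMul u₂))) :
        (FN N)ˣ) : FN N) : LaurentSeries Kbar) * (P * P') := by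
  obtain ⟨D₁, hD₁, D₀, hD₀, hp, hS⟩ := dec hN hx hx0 h₁ h₂ u₁ u₂ hu₁ hu₂ M hM
  exact corr hN _ D₁ D₀ hD₁ hD₀ hp hS

end Fermat.Agent.S12.FI.Geo

end
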